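/-
PROJECT T (S56), block (a1-II)/B3/E3, piece (C) (helper13), file 1: THE ARITHMETIC INPUT.

For a finite extension `F ⊂ ℚ̄` unramified outside `S ≠ ∅`, with `V = Gal(ℚ̄/F)`:
the cokernel of `J_S^V → C_S^V` is the `S`-class group of `F`, hence FINITE.  In the form consumed
by `FiniteCoker.lean`: finitely many invariant classes `γ i` represent `C_S^V` modulo the image of
`J_S^V`, and a nonzero integer `N` kills the cokernel.
-/
import Mathlib
import Fermat.Agent.CFT.Idele.LevelQS
import Fermat.Agent.CFT.C7.ExistCount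

set_option autoImplicit false
set_option linter.style.haveILetI false

open scoped NumberField

noncomputable section

namespace Fermat.Agent.S56.Base.EC.ClassGroupH1

open Fermat.Agent.CFT.Idele Fermat.Agent.CFT.Bridge

open scoped Fermat.Agent.CFT.Idele

attribute [local instance 2000] IntermediateField.algebra'

/-- `ExistCount.finite_ClS` for an arbitrary `ℚ`-algebra instance. -/
theorem finite_ClS_inst {L : Type} [Field L] [NumberField L] [inst : Algebra ℚ L]
    [Algebra.IsAlgebraic ℚ L] (T : Set Nat.Primes) : Finite (ClS L T) := by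
  obtain rfl : inst = DivisionRing.toRatAlgebra := Subsingleton.elim _ _
  exact Fermat.Agent.CFT.C7.ExistCount.finite_ClS (K := L) T

variable (S : Finset Nat.Primes)

/-- the action of `QS.C S` in multiplicative terms -/
theorem rhoC_eq (σ : GQ) (c : Additive (CD (isFieldFilter_unram S) (S : Set Nat.Primes))) :
    (QS.C S).ρ σ c = Additive.ofMul (σ • Additive.toMul c) := rfl

/-- the action of `QS.J S` in multiplicative terms -/
theorem rhoJ_eq (σ : GQ) (j : Additive (JD (isFieldFilter_unram S) (S : Set Nat.Primes))) :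
    (QS.J S).ρ σ j = Additive.ofMul (σ • Additive.toMul j) := rfl

variable {S}

/-- an invariant class of `C_S` comes from level `F` -/
theorem exists_ofLevel_eq (hS : S.Nonempty) {F : IntermediateField ℚ Qbar}
    (hF : F.IsUnramifiedOutside S) (c : (QS.C S).V)
    (hc : ∀ σ ∈ F.fixingSubgroup, (QS.C S).ρ σ c = c) :
    ∃ d : CS F (S : Set Nat.Primes),
      CD.ofLevel (isFieldFilter_unram S) (S : Set Nat.Primes) hF d = Additive.toMul c := by
  exact (QS.mem_range_ofLevel_iff S hS hF (Additive.toMul c)).2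
    (fun σ hσ => congrArg Additive.toMul (hc σ hσ))

/-- the class of an idele of level `F` in `C_S` is invariant, and is the image of an invariant
element of `J_S` -/
theorem ofLevel_JS_invariant {F : IntermediateField ℚ Qbar}
    (hF : F.IsUnramifiedOutside S) (x : JS F (S : Set Nat.Primes)) :
    ∀ σ ∈ F.fixingSubgroup, (QS.J S).ρ σ
      (Additive.ofMul (JD.ofLevel (isFieldFilter_unram S) (S : Set Nat.Primes) hF x)) =
      Additive.ofMul (JD.ofLevel (isFieldFilter_unram S) (S : Set Nat.Primes) hF x) := by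
  intro σ hσ
  exact congrArg Additive.ofMul
    ((JD.mem_range_ofLevel_iff (hP := isFieldFilter_unram S) (S := (S : Set Nat.Primes)) hF _).1
      ⟨x, rfl⟩ σ hσ)

theorem ofLevel_CS_invariant (hS : S.Nonempty) {F : IntermediateField ℚ Qbar}
    (hF : F.IsUnramifiedOutside S) (d : CS F (S : Set Nat.Primes)) :
    ∀ σ ∈ F.fixingSubgroup, (QS.C S).ρ σ
      (Additive.ofMul (CD.ofLevel (isFieldFilter_unram S) (S : Set Nat.Primes) hF d)) =
      Additive.ofMul (CD.ofLevel (isFieldFilter_unram S) (S : Set Nat.Primes) hF d) := by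
  intro σ hσ
  exact congrArg Additive.ofMul ((QS.mem_range_ofLevel_iff S hS hF _).1 ⟨d, rfl⟩ σ hσ)

/-- a class of level `F` which dies in the `S`-class group of `F` is the image of an invariant
`S`-idele -/
theorem exists_toC_eq_of_toClS_eq_one {F : IntermediateField ℚ Qbar}
    (hF : F.IsUnramifiedOutside S) (d : CS F (S : Set Nat.Primes))
    (hd : CS.toClS F (S : Set Nat.Primes) d = 1) :
    ∃ j : (QS.J S).V, (∀ σ ∈ F.fixingSubgroup, (QS.J S).ρ σ j = j) ∧
      (QS.toC S).hom j =
        Additive.ofMul (CD.ofLevel (isFieldFilter_unram S) (S : Set Nat.Primes) hF d) := by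
  obtain ⟨x, hx, rfl⟩ := CS.toClS_eq_one_iff.1 hd
  exact ⟨Additive.ofMul (JD.ofLevel (isFieldFilter_unram S) (S : Set Nat.Primes) hF ⟨x, hx⟩),
    ofLevel_JS_invariant hF ⟨x, hx⟩, rfl⟩

/-- the cokernel of `J_S^V → C_S^V` is represented by finitely many classes -/
theorem exists_reps (hS : S.Nonempty) {F : IntermediateField ℚ Qbar}
    (hF : F.IsUnramifiedOutside S) :
    ∃ (ι : Type) (_ : Finite ι) (γ : ι → (QS.C S).V),
      (∀ i, ∀ σ ∈ F.fixingSubgroup, (QS.C S).ρ σ (γ i) = γ i) ∧
      ∀ c : (QS.C S).V, (∀ σ ∈ F.fixingSubgroup, (QS.C S).ρ σ c = c) →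
        ∃ i, ∃ j : (QS.J S).V, (∀ σ ∈ F.fixingSubgroup, (QS.J S).ρ σ j = j) ∧
          c = γ i + (QS.toC S).hom j := by
  have hfin : FiniteDimensional ℚ F := hF.1
  have hnf : NumberField F := Fermat.Agent.CFT.C7.PlaceDict.numberField_of_finiteDimensional F
  have hfinCl : Finite (ClS F (S : Set Nat.Primes)) := finite_ClS_inst _
  choose r hr using CS.toClS_surjective F (S : Set Nat.Primes)
  refine ⟨ClS F (S : Set Nat.Primes), hfinCl,
    fun κ => Additive.ofMul (CD.ofLevel (isFieldFilter_unram S) (S : Set Nat.Primes) hF (r κ)),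
    fun κ => ofLevel_CS_invariant hS hF (r κ), fun c hc => ?_⟩
  obtain ⟨d, hd⟩ := exists_ofLevel_eq hS hF c hc
  have h1 : CS.toClS F (S : Set Nat.Primes) (d / r (CS.toClS F (S : Set Nat.Primes) d)) = 1 := by
    rw [map_div, hr, div_self']
  obtain ⟨j, hj, hjd⟩ := exists_toC_eq_of_toClS_eq_one hF _ h1
  refine ⟨CS.toClS F (S : Set Nat.Primes) d, j, hj, ?_⟩
  rw [hjd]
  have h2 : Additive.toMul c =
      CD.ofLevel (isFieldFilter_unram S) (S : Set Nat.Primes) hF (r (CS.toClS F (S : Set Nat.Primes) d)) *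
        CD.ofLevel (isFieldFilter_unram S) (S : Set Nat.Primes) hF
          (d / r (CS.toClS F (S : Set Nat.Primes) d)) := by
    rw [← map_mul, mul_div_cancel, hd]
  exact congrArg Additive.ofMul h2

/-- an open subgroup of `G_S` is the fixing subgroup of a finite extension unramified outside
`S` -/
theorem exists_field_of_isOpen {U' : Subgroup GQ}
    (hopen : Fermat.Agent.CFT.LC.Levels.IsOpen (levelsS S) U') :
    ∃ F : IntermediateField ℚ Qbar, F.IsUnramifiedOutside S ∧ F.fixingSubgroup = U' := by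
  obtain ⟨U, ⟨_, F₀, hF₀, rfl⟩, hle⟩ := hopen
  have hfin₀ : FiniteDimensional ℚ F₀ := hF₀.1
  have hop : IsOpen ((U' : Subgroup GQ) : Set GQ) :=
    Subgroup.isOpen_mono hle F₀.fixingSubgroup_isOpen
  have hclosed : IsClosed ((U' : Subgroup GQ) : Set GQ) := Subgroup.isClosed_of_isOpen _ hop
  have hFfix : (IntermediateField.fixedField U').fixingSubgroup = U' :=
    InfiniteGalois.fixingSubgroup_fixedField ⟨U', hclosed⟩
  have hFle : IntermediateField.fixedField U' ≤ F₀ := by
    rw [← InfiniteGalois.fixedField_fixingSubgroup F₀]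
    exact IntermediateField.fixedField_antitone hle
  exact ⟨IntermediateField.fixedField U', hF₀.of_le hFle, hFfix⟩

/-- a nonzero integer kills the cokernel of `J_S^V → C_S^V` -/
theorem exists_exponent (hS : S.Nonempty) {F : IntermediateField ℚ Qbar}
    (hF : F.IsUnramifiedOutside S) :
    ∃ N : ℕ, N ≠ 0 ∧ ∀ c : (QS.C S).V, (∀ σ ∈ F.fixingSubgroup, (QS.C S).ρ σ c = c) →
      ∃ j : (QS.J S).V, (∀ σ ∈ F.fixingSubgroup, (QS.J S).ρ σ j = j) ∧
        (N : ℤ) • c = (QS.toC S).hom j := by
  have hfin : FiniteDimensional ℚ F := hF.1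
  have hnf : NumberField F := Fermat.Agent.CFT.C7.PlaceDict.numberField_of_finiteDimensional F
  have hfinCl : Finite (ClS F (S : Set Nat.Primes)) := finite_ClS_inst _
  refine ⟨Nat.card (ClS F (S : Set Nat.Primes)), Nat.card_pos.ne', fun c hc => ?_⟩
  obtain ⟨d, hd⟩ := exists_ofLevel_eq hS hF c hc
  have h1 : CS.toClS F (S : Set Nat.Primes) (d ^ Nat.card (ClS F (S : Set Nat.Primes))) = 1 := by
    rw [map_pow, pow_card_eq_one']
  obtain ⟨j, hj, hjd⟩ := exists_toC_eq_of_toClS_eq_one hF _ h1
  refine ⟨j, hj, ?_⟩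
  rw [hjd, map_pow, hd, natCast_zsmul]
  rfl

end Fermat.Agent.S56.Base.EC.ClassGroupH1
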