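/-
PROJECT T (S56), block (a1-II)/B3/E3, piece (C) (helper13), file 4: `H¹_LC(V, J) = 0`.

Generic: for an open subgroup `V` the module `Coind_V^G (Res X)` is a retract of
`Hom(k[G/V], X)`, so `Hⁿ_LC(V, X) = 0` as soon as `Hⁿ_LC(G, Hom(k[G/V], X)) = 0`.
Arithmetic: for the datum of `G_{ℚ,S}`, `H¹_LC(G_S, Hom(P, J)) = 0` for every permutation lattice
`P` by semilocal Shapiro (`h4_one`) and local Hilbert 90 (`cfD`).
-/
import Mathlib
import Fermat.Agent.CFT.LC.PermHom
import Fermat.Agent.CFT.D.Main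

set_option autoImplicit false

noncomputable section

namespace Fermat.Agent.S56.Base.EC.ClassGroupH1

open CategoryTheory MulAction Fermat.Agent.CFT.LC

section Generic

variable {k G : Type} [CommRing k] [Group G]

section Perm

variable {ι : Type} [MulAction G ι] (P X : Rep.{0} k G) (b : Module.Basis ι k P)
  (hperm : ∀ g i, P.ρ g (b i) = b (g • i))

/-- `Coind_{Stab i₀}^G (Res X)` is a retract of `Hom(P, X)` -/
theorem permIncl_comp_permProj (i₀ : ι) :
    permIncl P X b hperm i₀ ≫ permProj P X b hperm i₀ = 𝟙 _ := by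
  ext φ x
  change ((permProj P X b hperm i₀).hom ((permIncl P X b hperm i₀).hom φ)).1 x = φ.1 x
  rw [permProj_apply, permIncl_apply_basis,
    permVal_eq i₀ φ x⁻¹ rfl, inv_inv, ← Module.End.mul_apply, ← map_mul, mul_inv_cancel, map_one,
    Module.End.one_apply]

end Perm

variable (𝒰 : Levels G) [𝒰.IsFin]

omit [𝒰.IsFin] in
/-- transport of vanishing along an equality of subgroups -/
theorem isZero_H_restrict_congr {V W : Subgroup G} (h : V = W) (X : Rep.{0} k G) (n : ℕ)
    (hz : Limits.IsZero (H (𝒰.restrict V) (Rep.res V.subtype X) n)) :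
    Limits.IsZero (H (𝒰.restrict W) (Rep.res W.subtype X) n) := by
  subst h
  exact hz

/-- **`Hⁿ_LC(V, X) = 0`** for an open subgroup `V`, as soon as
`Hⁿ_LC(G, Hom(k[G/V], X)) = 0`. -/
theorem isZero_H_restrict_of_ihom (V : Subgroup G) (hV : 𝒰.IsOpen V) (X : Rep.{0} k G)
    (hX : IsSmooth 𝒰 X) (n : ℕ)
    (h : Limits.IsZero (H 𝒰 ((Rep.ihom (Rep.ofMulAction k G (G ⧸ V))).obj X) n)) :
    Limits.IsZero (H (𝒰.restrict V) (Rep.res V.subtype X) n) := by
  set i₀ : G ⧸ V := ((1 : G) : G ⧸ V) with hi₀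
  have hstab : stabilizer G i₀ = V := MulAction.stabilizer_quotient V
  have hperm : ∀ (g : G) (i : G ⧸ V), (Rep.ofMulAction k G (G ⧸ V)).ρ g
      (MonoidAlgebra.basis (G ⧸ V) k i) = MonoidAlgebra.basis (G ⧸ V) k (g • i) :=
    fun g i => Representation.ofMulAction_single g i 1
  have h1 := isZero_H_of_retract (𝒰 := 𝒰)
    (permIncl (Rep.ofMulAction k G (G ⧸ V)) X (MonoidAlgebra.basis (G ⧸ V) k) hperm i₀)
    (permProj (Rep.ofMulAction k G (G ⧸ V)) X (MonoidAlgebra.basis (G ⧸ V) k) hperm i₀)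
    (permIncl_comp_permProj _ X _ hperm i₀) n h
  have hopen : 𝒰.IsOpen (stabilizer G i₀) := by rw [hstab]; exact hV
  have h2 : Limits.IsZero (H (𝒰.restrict (stabilizer G i₀))
      (Rep.res (stabilizer G i₀).subtype X) n) :=
    h1.of_iso (shCoindIso 𝒰 (stabilizer G i₀) (Rep.res (stabilizer G i₀).subtype X) hopen
      (hX.res _) n).symm
  exact isZero_H_restrict_congr 𝒰 hstab X n h2

end Generic

section Datum

open Fermat.Agent.CFT.Bridge Fermat.Agent.CFT.D.Main Fermat.Agent.CFT.D.Reduce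
  Fermat.Agent.CFT.A7 Fermat.Agent.CFT.A7.HomRep Fermat.Agent.CFT.D

variable {p : ℕ} [Fact p.Prime] {S : Finset Nat.Primes} {k : Type} [CommRing k]
  {φ : k →+* ZMod p} (dat : Datum S φ)

/-- **`H¹_LC(G_S, Hom(P, J)) = 0`** for every permutation lattice `P` with open stabilisers. -/
theorem isZero_H1_homRep_perm {ι : Type} [MulAction GQ ι] [Finite ι] (P : Rep.{0} k GQ)
    (b : Module.Basis ι k P) (hperm : ∀ g i, P.ρ g (b i) = b (g • i))
    (hopen : ∀ i : ι, (levelsS S).IsOpen (stabilizer GQ i)) :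
    Limits.IsZero (H (levelsS S) (homRep P dat.SES.X₂) 1) := by
  have hfree : Module.Free k P.V := Module.Free.of_basis b
  have hfin : Module.Finite k P.V := Module.Finite.of_basis b
  obtain ⟨U₀, hU₀, htriv⟩ := PermH1.exists_level_trivial b hperm (levelsS S) hopen
  rw [ModuleCat.isZero_iff_subsingleton]
  refine ⟨fun x x' => ?_⟩
  suffices h : ∀ x : H (levelsS S) (homRep P dat.SES.X₂) 1, x = 0 from (h x).trans (h x').symm
  intro x
  refine dat.h4_one P ⟨U₀, hU₀, htriv⟩ x (fun q => ?_)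
  let _ : MulAction (Gv S q) ι := MulAction.compHom ι (rv S q)
  have hopen' : ∀ i : ι, (Uv S q).IsOpen (stabilizer (Gv S q) i) := fun i => by
    obtain ⟨U, hU, hle⟩ := hopen i
    obtain ⟨U', hU', hle'⟩ := hrv S q U hU
    exact ⟨U', hU', fun s hs => hle (hle' hs)⟩
  have hz : Limits.IsZero (H (Uv S q) (homRep (Rep.res (rv S q) P) (dat.Dloc q)) 1) :=
    isZero_H_ihom_of_perm (Rep.res (rv S q) P) (dat.Dloc q) b
      (fun g i => hperm (rv S q g) i) (Uv S q) (dat.smD q) hopen' 1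
      (fun i => (dat.cfD q).isZero_H1_restrict _ (hopen' i))
  exact (ModuleCat.isZero_iff_subsingleton.1 hz).elim _ _

/-- **`H¹_LC(U', J) = 0`** for every open subgroup `U'` of `G_S`. -/
theorem isZero_H1_restrict_J (U' : Subgroup GQ) (hopen : (levelsS S).IsOpen U') :
    Limits.IsZero (H ((levelsS S).restrict U') (Rep.res U'.subtype dat.SES.X₂) 1) := by
  have hfi : U'.FiniteIndex := hopen.finiteIndex
  have hfq : Finite (GQ ⧸ U') := Subgroup.finite_quotient_of_finiteIndex
  refine isZero_H_restrict_of_ihom (levelsS S) U' hopen dat.SES.X₂ dat.smJ 1 ?_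
  refine isZero_H1_homRep_perm dat (Rep.ofMulAction k GQ (GQ ⧸ U'))
    (MonoidAlgebra.basis (GQ ⧸ U') k) (fun g i => Representation.ofMulAction_single g i 1)
    (fun i => ?_)
  obtain ⟨U, hU, hle⟩ := hopen
  have hUn : U.Normal := (levelsS S).normal U hU
  refine ⟨U, hU, fun u hu => ?_⟩
  induction i using QuotientGroup.induction_on with
  | H g =>
    rw [mem_stabilizer_iff]
    change ((u * g : GQ) : GQ ⧸ U') = (g : GQ ⧸ U')
    rw [QuotientGroup.eq]
    apply hle
    have h1 : (u * g)⁻¹ * g = g⁻¹ * u⁻¹ * g⁻¹⁻¹ := by group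
    rw [h1]
    exact hUn.conj_mem _ (U.inv_mem hu) _

end Datum

end Fermat.Agent.S56.Base.EC.ClassGroupH1
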