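/-
PROJECT T (S56), block (a1-II)/B3/E3, piece (C) (helper13), file 2: LOCALISATION, INVARIANTS AND
FINITE COKERNELS (pure algebra).

`b : X ⟶ X'` a morphism of representations of `G` over `ℤ`, `b' : Y ⟶ Y'` its localisation at a
submonoid `M ⊆ ℤ` whose elements are units of `k`, `V ≤ G` a subgroup with finite orbits on `X'`.
If the cokernel of `X^V → X'^V` is represented by finitely many classes and killed by `N`, and
`k ⧸ (N)` is finite, then the cokernel of `Y^V → Y'^V` is FINITE.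
-/
import Mathlib
import Fermat.Agent.CFT.A7.BaseChange

set_option autoImplicit false

noncomputable section

namespace Fermat.Agent.S56.Base.EC.ClassGroupH1

open CategoryTheory Fermat.Agent.CFT.A7.BaseChange

variable {k G : Type} [CommRing k] [Group G]

/-- the invariants of a subgroup, as a submodule -/
def invSub (V : Subgroup G) (Y : Rep.{0} k G) : Submodule k Y.V where
  carrier := {y | ∀ v ∈ V, Y.ρ v y = y}
  add_mem' := fun {a b} ha hb v hv => by rw [map_add, ha v hv, hb v hv]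
  zero_mem' := fun v _ => map_zero _
  smul_mem' := fun c a ha v hv => by rw [map_smul, ha v hv]

theorem mem_invSub {V : Subgroup G} {Y : Rep.{0} k G} {y : Y.V} :
    y ∈ invSub V Y ↔ ∀ v ∈ V, Y.ρ v y = y := Iff.rfl

/-- a morphism of representations restricted to the invariants -/
def invMap (V : Subgroup G) {Y Y' : Rep.{0} k G} (b' : Y ⟶ Y') :
    invSub V Y →ₗ[k] invSub V Y' where
  toFun y := ⟨b'.hom y.1, fun v hv => by
    rw [← Rep.hom_comm_apply, y.2 v hv]⟩
  map_add' a b := Subtype.ext (map_add _ _ _)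
  map_smul' c a := Subtype.ext (map_smul _ _ _)

@[simp] theorem invMap_coe (V : Subgroup G) {Y Y' : Rep.{0} k G} (b' : Y ⟶ Y')
    (y : invSub V Y) : ((invMap V b' y : invSub V Y') : Y'.V) = b'.hom y.1 := rfl

/-- A finitely generated module killed by `N` over a ring with `k ⧸ (N)` finite is finite. -/
theorem finite_of_fg_of_smul_eq_zero {R M : Type*} [CommRing R] [AddCommGroup M] [Module R M]
    [Module.Finite R M] (N : R) (hN : ∀ x : M, N • x = 0) [Finite (R ⧸ Ideal.span {N})] :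
    Finite M := by
  have ht : Module.IsTorsionBy R M N := hN
  let _ := ht.module
  have : IsScalarTower R (R ⧸ Ideal.span {N}) M := inferInstance
  have : Module.Finite (R ⧸ Ideal.span {N}) M := Module.Finite.of_restrictScalars_finite R _ M
  exact Module.finite_of_finite (R ⧸ Ideal.span {N})

section Main

variable {R : Type} [CommRing R] [Algebra R k] {M : Submonoid R} {X X' : Rep.{0} R G}
  {Y Y' : Rep.{0} k G} {f : X.V →+ Y.V} {f' : X'.V →+ Y'.V}

/-- the orbit of a vector with a finite-index stabiliser is finite -/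
theorem finite_orbit (x' : X'.V) (U : Subgroup G) [U.FiniteIndex]
    (hU : ∀ u ∈ U, X'.ρ u x' = x') : {y : X'.V | ∃ g : G, X'.ρ g x' = y}.Finite := by
  have : Finite (G ⧸ U) := Subgroup.finite_quotient_of_finiteIndex
  refine (Set.finite_range (fun q : G ⧸ U => X'.ρ q.out x')).subset ?_
  rintro _ ⟨g, rfl⟩
  refine ⟨(g : G ⧸ U), ?_⟩
  have h1 : ((g : G ⧸ U).out)⁻¹ * g ∈ U := by
    rw [← QuotientGroup.eq]
    exact QuotientGroup.out_eq' _
  have h2 : g = (g : G ⧸ U).out * (((g : G ⧸ U).out)⁻¹ * g) := by group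
  conv_rhs => rw [h2]
  rw [map_mul, Module.End.mul_apply, hU _ h1]

variable (hf : IsLocRep M X Y f) (hf' : IsLocRep M X' Y' f')
  (hM : ∀ s ∈ M, IsUnit (algebraMap R k s)) (b : X ⟶ X') (b' : Y ⟶ Y')
  (hb : ∀ x, f' (b.hom x) = b'.hom (f x)) (V : Subgroup G)
  (horb : ∀ x' : X'.V, ∃ U : Subgroup G, U.FiniteIndex ∧ ∀ u ∈ U, X'.ρ u x' = x')

include hf' hM horb in
/-- an invariant vector of the localisation is a unit multiple of the image of an invariant
vector -/
theorem exists_invariant_lift (c : Y'.V) (hc : ∀ v ∈ V, Y'.ρ v c = c) :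
    ∃ (u : kˣ) (x' : X'.V), (∀ v ∈ V, X'.ρ v x' = x') ∧ (u : k) • c = f' x' := by
  obtain ⟨s, hs, x', hx'⟩ := hf'.surj c
  obtain ⟨U, hUfin, hU⟩ := horb x'
  have hfin := finite_orbit x' U hU
  -- the finitely many differences `ρ v x' - x'` have a common annihilator
  have hfin' : Finite {y : X'.V | ∃ g : G, X'.ρ g x' = y} := hfin
  have hann : ∀ y : {y : X'.V | ∃ g : G, X'.ρ g x' = y}, (∃ v ∈ V, X'.ρ v x' = y.1) →
      ∃ t ∈ M, t • (y.1 - x') = 0 := by
    rintro ⟨y, hy⟩ ⟨v, hv, rfl⟩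
    refine hf'.eq_zero _ ?_
    rw [map_sub, hf'.map_ρ, ← hx', map_smul, hc v hv, sub_self]
  classical
  obtain ⟨t, ht, htann⟩ := exists_common_annihilator (M := M) (X := X')
    (fun y : {y : X'.V | ∃ g : G, X'.ρ g x' = y} =>
      if ∃ v ∈ V, X'.ρ v x' = y.1 then y.1 - x' else 0)
    (fun y => by
      by_cases h : ∃ v ∈ V, X'.ρ v x' = y.1
      · rw [if_pos h]; exact hann y h
      · rw [if_neg h]; exact ⟨1, M.one_mem, smul_zero _⟩)
  obtain ⟨us, hus⟩ := hM s hs
  obtain ⟨ut, hut⟩ := hM t ht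
  refine ⟨ut * us, t • x', fun v hv => ?_, ?_⟩
  · have h1 := htann ⟨X'.ρ v x', v, rfl⟩
    rw [if_pos ⟨v, hv, rfl⟩, smul_sub, sub_eq_zero] at h1
    rw [map_smul]
    exact h1
  · rw [hf'.map_smul, ← hx', Units.val_mul, hus, hut, mul_smul]

include hf hf' hM hb horb in
/-- **finiteness of the cokernel on invariants after localisation** -/
theorem finite_quotient_invMap (ι : Type) [Finite ι] (γ : ι → X'.V)
    (hγ : ∀ i, ∀ v ∈ V, X'.ρ v (γ i) = γ i)
    (hrep : ∀ c : X'.V, (∀ v ∈ V, X'.ρ v c = c) →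
      ∃ i, ∃ j : X.V, (∀ v ∈ V, X.ρ v j = j) ∧ c = γ i + b.hom j)
    (N : R) (hN : ∀ c : X'.V, (∀ v ∈ V, X'.ρ v c = c) →
      ∃ j : X.V, (∀ v ∈ V, X.ρ v j = j) ∧ N • c = b.hom j)
    [Finite (k ⧸ Ideal.span {algebraMap R k N})] :
    Finite (invSub V Y' ⧸ LinearMap.range (invMap V b')) := by
  classical
  cases nonempty_fintype ι
  have hfinv : ∀ j : X.V, (∀ v ∈ V, X.ρ v j = j) → f j ∈ invSub V Y := fun j hj v hv => by
    rw [← hf.map_ρ, hj v hv]
  have hf'inv : ∀ c : X'.V, (∀ v ∈ V, X'.ρ v c = c) → f' c ∈ invSub V Y' := fun c hc v hv => by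
    rw [← hf'.map_ρ, hc v hv]
  -- generators
  let gen : ι → invSub V Y' ⧸ LinearMap.range (invMap V b') := fun i =>
    Submodule.Quotient.mk ⟨f' (γ i), hf'inv _ (hγ i)⟩
  have hsurj : Function.Surjective (Fintype.linearCombination k gen) := by
    intro q
    obtain ⟨⟨c, hc⟩, rfl⟩ := Submodule.Quotient.mk_surjective _ q
    obtain ⟨u, x', hx', hux'⟩ := exists_invariant_lift hf' hM V horb c hc
    obtain ⟨i, j, hj, hij⟩ := hrep x' hx'
    refine ⟨Pi.single i ((u⁻¹ : kˣ) : k), ?_⟩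
    rw [Fintype.linearCombination_apply_single]
    change ((u⁻¹ : kˣ) : k) • Submodule.Quotient.mk _ = _
    rw [← Submodule.Quotient.mk_smul, eq_comm, Submodule.Quotient.eq]
    refine ⟨⟨((u⁻¹ : kˣ) : k) • f j, (invSub V Y).smul_mem _ (hfinv j hj)⟩, ?_⟩
    apply Subtype.ext
    change b'.hom (((u⁻¹ : kˣ) : k) • f j) = c - ((u⁻¹ : kˣ) : k) • f' (γ i)
    have e1 : c = ((u⁻¹ : kˣ) : k) • f' x' := by
      rw [← hux', smul_smul, Units.inv_mul, one_smul]
    rw [map_smul, ← hb, e1, hij, map_add, smul_add]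
    abel
  have hfg : Module.Finite k (invSub V Y' ⧸ LinearMap.range (invMap V b')) :=
    Module.Finite.of_surjective _ hsurj
  refine finite_of_fg_of_smul_eq_zero (algebraMap R k N) (fun q => ?_)
  obtain ⟨⟨c, hc⟩, rfl⟩ := Submodule.Quotient.mk_surjective _ q
  obtain ⟨u, x', hx', hux'⟩ := exists_invariant_lift hf' hM V horb c hc
  obtain ⟨j, hj, hNj⟩ := hN x' hx'
  rw [← Submodule.Quotient.mk_smul, Submodule.Quotient.mk_eq_zero]
  refine ⟨⟨((u⁻¹ : kˣ) : k) • f j, (invSub V Y).smul_mem _ (hfinv j hj)⟩, ?_⟩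
  apply Subtype.ext
  change b'.hom (((u⁻¹ : kˣ) : k) • f j) = algebraMap R k N • c
  have e1 : c = ((u⁻¹ : kˣ) : k) • f' x' := by
    rw [← hux', smul_smul, Units.inv_mul, one_smul]
  rw [map_smul, ← hb, ← hNj, hf'.map_smul, e1, smul_smul, smul_smul, mul_comm]

end Main

end Fermat.Agent.S56.Base.EC.ClassGroupH1
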