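/-
PROJECT T (S56), block (a1-II)/B3/E3, piece (C) (helper13), file 3: THE COHOMOLOGICAL STEP.

`X : 0 → X₁ → X₂ → X₃ → 0` a short exact sequence of smooth representations of `G` (levels `𝒰`),
`V ≤ G` a subgroup with `H¹_LC(V, X₂) = 0`.  Then `H¹_LC(V, X₁)` is a quotient of
`X₃^V ⧸ g(X₂^V)`; in particular `H¹_LC(G, sInd_V^G X₁)` is FINITE as soon as that cokernel is.
-/
import Mathlib
import Fermat.Agent.CFT.LC.Shapiro
import Fermat.Agent.CFT.LC.Elementwise
import Fermat.Agent.CFT.LC.CoresRes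
import Fermat.Agent.CFT.LC.Naturality
import Fermat.Agent.S56.Base.EC.ClassGroupH1.FiniteCoker

set_option autoImplicit false

noncomputable section

namespace Fermat.Agent.S56.Base.EC.ClassGroupH1

open CategoryTheory Fermat.Agent.CFT.LC

variable {k G : Type} [CommRing k] [Group G] (𝒰 : Levels G)

variable (V : Subgroup G)

/-- the class in `H⁰_LC(V, A)` of a `V`-invariant vector -/
def h0Class (A : Rep.{0} k G) :
    invSub V A →ₗ[k] H (𝒰.restrict V) (Rep.res V.subtype A) 0 where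
  toFun a := Hπ (𝒰.restrict V) (Rep.res V.subtype A) 0
    (cocycleOfInvariant (𝒰.restrict V) (A := Rep.res V.subtype A) a.1 (fun g => a.2 g g.2))
  map_add' a b := by
    rw [← map_add]
    congr 1
  map_smul' c a := by
    rw [RingHom.id_apply, ← map_smul]
    congr 1

theorem h0Class_surjective (A : Rep.{0} k G) : Function.Surjective (h0Class 𝒰 V A) := by
  intro x
  induction x using H_induction_on with
  | h z =>
    refine ⟨⟨z.1.1 default, fun g hg => cocyclesLC_zero_invariant z ⟨g, hg⟩ default⟩, ?_⟩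
    change Hπ (𝒰.restrict V) (Rep.res V.subtype A) 0 _ = _
    congr 1
    apply Subtype.ext
    apply Subtype.ext
    funext y
    have ey : y = default := Subsingleton.elim _ _
    rw [ey]
    rfl

theorem mapId_h0Class {A B : Rep.{0} k G} (ψ : A ⟶ B) (a : invSub V A) :
    mapId (𝒰 := 𝒰.restrict V) ((Rep.resFunctor V.subtype).map ψ) 0 (h0Class 𝒰 V A a) =
      h0Class 𝒰 V B (invMap V ψ a) := by
  change map (A := Rep.res V.subtype A) (B := Rep.res V.subtype B)
    (Levels.continuous_id (𝒰.restrict V)) ((Rep.resFunctor V.subtype).map ψ) 0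
      (Hπ (𝒰.restrict V) (Rep.res V.subtype A) 0 _) = Hπ (𝒰.restrict V) (Rep.res V.subtype B) 0 _
  rw [map_Hπ]
  congr 1

variable [𝒰.IsFin] {X : ShortComplex (Rep.{0} k G)} (hX : X.ShortExact)
  (hsm₁ : IsSmooth 𝒰 X.X₁) (hsm₂ : IsSmooth 𝒰 X.X₂)

include hX hsm₂ in
/-- **`H¹_LC(V, X₁)` is finite** when `H¹_LC(V, X₂) = 0` and `X₃^V ⧸ g(X₂^V)` is finite. -/
theorem finite_H1_restrict
    (hJ : ∀ y : H (𝒰.restrict V) (Rep.res V.subtype X.X₂) 1, y = 0)
    (hfin : Finite (invSub V X.X₃ ⧸ LinearMap.range (invMap V X.g))) :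
    Finite (H (𝒰.restrict V) (Rep.res V.subtype X.X₁) 1) := by
  have hX' : (X.map (Rep.resFunctor V.subtype)).ShortExact :=
    (Rep.shortExact_res V.subtype).mpr hX
  have hsm' : IsSmooth (𝒰.restrict V) (X.map (Rep.resFunctor V.subtype)).X₂ :=
    IsSmooth.res_of_continuous (Levels.continuous_comap V.subtype 𝒰) hsm₂
  let Φ : invSub V X.X₃ →ₗ[k] H (𝒰.restrict V) (Rep.res V.subtype X.X₁) 1 :=
    (lcδ hX' hsm' 0 1 rfl).hom ∘ₗ h0Class 𝒰 V X.X₃
  have hle : LinearMap.range (invMap V X.g) ≤ LinearMap.ker Φ := by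
    rintro _ ⟨j, rfl⟩
    rw [LinearMap.mem_ker]
    change (lcδ hX' hsm' 0 1 rfl) (h0Class 𝒰 V X.X₃ (invMap V X.g j)) = 0
    rw [← mapId_h0Class]
    exact El.lcδ_mapId_g_apply hX' hsm' 0 1 rfl _
  have hsurj : Function.Surjective ((LinearMap.range (invMap V X.g)).liftQ Φ hle) := by
    intro y
    have h0 : mapId (𝒰 := 𝒰.restrict V) (X.map (Rep.resFunctor V.subtype)).f 1 y = 0 := hJ _
    obtain ⟨x, hx⟩ := El.exists_lcδ_eq hX' hsm' 0 1 rfl y h0
    obtain ⟨a, rfl⟩ := h0Class_surjective 𝒰 V X.X₃ x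
    exact ⟨Submodule.Quotient.mk a, hx⟩
  exact Finite.of_surjective _ hsurj

include hX hsm₁ hsm₂ in
/-- the same for `H¹_LC(G, sInd_V^G X₁)` (Shapiro) -/
theorem finite_H1_sInd
    (hJ : ∀ y : H (𝒰.restrict V) (Rep.res V.subtype X.X₂) 1, y = 0)
    (hfin : Finite (invSub V X.X₃ ⧸ LinearMap.range (invMap V X.g))) :
    Finite (H 𝒰 (sInd 𝒰 V (Rep.res V.subtype X.X₁)) 1) := by
  have h1 := finite_H1_restrict 𝒰 V hX hsm₂ hJ hfin
  have hB : IsSmooth (𝒰.restrict V) (Rep.res V.subtype X.X₁) :=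
    IsSmooth.res_of_continuous (Levels.continuous_comap V.subtype 𝒰) hsm₁
  exact Finite.of_equiv _ (shIso 𝒰 V 1 _ hB).toLinearEquiv.symm.toEquiv

end Fermat.Agent.S56.Base.EC.ClassGroupH1
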