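/-
PROJECT T (S56), block (a1-II)/B3/E3 (owner helper11), piece (C) (helper13), file 5: FINITENESS OF
`H¹(U', E_S ⊗ ℤ_(p))` in Shapiro form, `H¹_LC(G_S, sInd_{U'} (E_S ⊗ ℤ_(p)))`.

`H¹(U', J) = 0` (semilocal Shapiro + local Hilbert 90, `H1J`), so `H¹(U', E)` is a quotient of
`C^{U'} ⧸ im J^{U'}` (`LCSeq`); over `ℤ` that cokernel is the `S`-class group of the fixed field of
`U'` (`Arith`), finite, and localisation at `p` keeps it finite (`FiniteCoker`).
-/
import Fermat.Agent.CFT.D.Datum.Build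
import Fermat.Agent.S56.Base.EC.ClassGroupH1.Arith
import Fermat.Agent.S56.Base.EC.ClassGroupH1.LCSeq
import Fermat.Agent.S56.Base.EC.ClassGroupH1.H1J

set_option autoImplicit false

noncomputable section

namespace Fermat.Agent.S56.Base.EC.ClassGroupH1

open CategoryTheory ExtCitation
open Fermat.Agent.CFT.LC Fermat.Agent.CFT.Bridge Fermat.Agent.CFT.D.Reduce
open Fermat.Agent.CFT.D.DatumBuild Fermat.Agent.CFT.D.ZpModel Fermat.Agent.CFT.Idele
open Fermat.Agent.CFT.C7.SES Fermat.Agent.CFT.A7.BaseChange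

variable (p : ℕ) [Fact p.Prime]

/-- `ℤ_(p) ⧸ (N)` is finite for every nonzero natural number `N` -/
theorem finite_quotient_span_natCast (N : ℕ) (hN : N ≠ 0) :
    Finite (Zp p ⧸ Ideal.span {algebraMap ℤ (Zp p) ((N : ℕ) : ℤ)}) := by
  have hp : p.Prime := Fact.out
  obtain ⟨a, m, hm, rfl⟩ := Nat.exists_eq_pow_mul_and_not_dvd hN p hp.ne_one
  have hmu : IsUnit ((m : ℕ) : Zp p) :=
    isUnit_natCast_of_coprime p m ((Nat.Prime.coprime_iff_not_dvd hp).2 hm).symm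
  have h1 : Ideal.span {algebraMap ℤ (Zp p) (((p ^ a * m : ℕ)) : ℤ)} =
      Ideal.span {(p : Zp p)} ^ a := by
    rw [Ideal.span_singleton_pow, map_natCast, Nat.cast_mul, Nat.cast_pow]
    exact Ideal.span_singleton_mul_right_unit hmu _
  rw [h1]
  have hfin : Finite (Zp p ⧸ Ideal.span {(p : Zp p)}) :=
    Nat.finite_of_card_ne_zero (by rw [card_quotient_span_p]; exact hp.ne_zero)
  exact Ideal.finite_quotient_pow (Submodule.fg_span_singleton _) a

variable {p} {S : Finset Nat.Primes}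

/-- the cokernel of `(J_S ⊗ ℤ_(p))^{U'} → (C_S ⊗ ℤ_(p))^{U'}` is finite -/
theorem finite_coker (hpS : pPrime p ∈ S) (U' : Subgroup GQ)
    (hopen : (levelsS S).IsOpen U') :
    Finite (invSub U' (seqK S (Zp p)).X₃ ⧸ LinearMap.range (invMap U' (seqK S (Zp p)).g)) := by
  have hS : S.Nonempty := ⟨_, hpS⟩
  obtain ⟨F, hF, hFU⟩ := exists_field_of_isOpen hopen
  obtain ⟨ι, hι, γ, hγ, hrep⟩ := exists_reps hS hF
  obtain ⟨N, hN0, hN⟩ := exists_exponent hS hF
  have hfinq := finite_quotient_span_natCast p N hN0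
  have horb : ∀ x' : (QS.C S).V, ∃ U : Subgroup GQ, U.FiniteIndex ∧
      ∀ u ∈ U, (QS.C S).ρ u x' = x' := fun x' => by
    obtain ⟨U, hU, h⟩ := QS.isSmooth_C S x'
    exact ⟨U, Levels.IsFin.finiteIndex U hU, h⟩
  subst hFU
  have hb : ∀ x : (QS.J S).V, toTensorRep (k := Zp p) (QS.C S) ((QS.toC S).hom x) =
      (seqK S (Zp p)).g.hom (toTensorRep (k := Zp p) (QS.J S) x) :=
    tensorMap_toTensorRep (Zp p) (QS.toC S)
  refine @finite_quotient_invMap (Zp p) GQ _ _ ℤ _ _ (primeTo p) (QS.J S) (QS.C S)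
    (seqK S (Zp p)).X₂ (seqK S (Zp p)).X₃ (toTensorRep (QS.J S)) (toTensorRep (QS.C S))
    (isLocRep_seqK_X₂ S p (Zp p)) (isLocRep_seqK_X₃ S p (Zp p))
    (isUnit_algebraMap_of_mem p) (QS.toC S) (seqK S (Zp p)).g hb F.fixingSubgroup ?_ ι hι γ ?_ ?_
    ((N : ℕ) : ℤ) ?_ ?_
  · exact horb
  · exact hγ
  · exact hrep
  · exact hN
  · exact hfinq

/-- **`H¹(U', E_S ⊗ ℤ_(p))` is finite**, in Shapiro form. -/
theorem finite_H1_sInd_EK (U' : Subgroup GQ) (hopen : (levelsS S).IsOpen U')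
    (hpS : pPrime p ∈ S) (g : GlobalInputs p S) :
    Finite (H (levelsS S) (sInd (levelsS S) U' (Rep.res U'.subtype (EK p S))) 1) := by
  have hJ0 := isZero_H1_restrict_J (theDatum hpS g) U' hopen
  have hJ : ∀ y : H ((levelsS S).restrict U') (Rep.res U'.subtype (seqK S (Zp p)).X₂) 1,
      y = 0 := fun y => (ModuleCat.isZero_iff_subsingleton.1 hJ0).elim _ _
  exact finite_H1_sInd (X := seqK S (Zp p)) (levelsS S) U' (seqK_shortExact p (Zp p) hpS)
    (isSmooth_seqK_X₁ S p (Zp p)) (isSmooth_seqK_X₂ S p (Zp p)) hJ (finite_coker hpS U' hopen)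

end Fermat.Agent.S56.Base.EC.ClassGroupH1
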